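/-
Programme MZ (S15, Mazur), chapter LOCL (helper4): **the local condition at `ℓ` — Greenberg-ordinary
+ peu ramifié — in element form on inertia, and Claim L** (the induced conditions on the
constituents of a filtration are `unramified` resp. `unit classes`).

Vocabulary of `TW/LOC/Defs2` + `PT/PRO/LevelCoh28`: `Gq ℓ = Gal(ℚ̄_ℓ/ℚ_ℓ)`, `Iq ℓ` its inertia group,
level cohomology `H1 (levelLoc ℓ) B` of `B : Rep ℤ (Gq ℓ)`.  `Ω = PadicAlgCl ℓ`.

* `UnitRad f` : the `Ωˣ`-valued function `f` on `Gq ℓ` has a UNIT radical on inertia: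
  `∃ u, ‖u‖ = 1 ∧ ∀ τ ∈ Iq ℓ, τ u = f τ * u` (the shape of `TW/FLAT/PeuLocal7.exists_unit_kummer`);
* `IsChar T j` : `j : B → Ω` is a character on the subgroup `T` (`j 0 = 1`, multiplicative on `T`);
* `OrdPeu B B0` : `B0` finite, inertia acts trivially on `B/B0`, and the extension
  `B0 → B → B/B0` has unit Kummer classes;
* `Lord B B0 : Submodule ℤ (H1 (levelLoc ℓ) B)` : classes with a representative `c` with
  `c(Iq) ⊆ B0` and `UnitRad (j ∘ c)` for every character `j` of `B0`;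
* `HunitI X ι` : classes with a representative `c` with `UnitRad (ι ∘ c)`;
* `mem_Lord_iff` : under `OrdPeu`, EVERY representative of a class of `Lord` satisfies the two
  conditions;
* **`claimL_et`**, **`claimL_mult`** : Claim L;
* `unitRad_of_mem_HunitI` : for an inertia-equivariant character the unit condition does not depend
  on the representative.
-/
import Mathlib
import Fermat.Agent.TW.LOC.Defs2

set_option autoImplicit false
set_option linter.unusedSectionVars false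
set_option linter.style.longLine false

open groupCohomology
open Fermat.Agent.PT.PRO.LevelCoh28 Fermat.Agent.PT.GLUE.Objects21 Fermat.Agent.TW.LOC.Defs2

noncomputable section

namespace Fermat.Agent.MZ.LOCL.OrdPeu4

variable (ℓ : ℕ) [Fact ℓ.Prime]

/-! ### unit radicals -/

/-- the function `f` has a unit radical on inertia. -/
def UnitRad (f : Gq ℓ → PadicAlgCl ℓ) : Prop :=
  ∃ u : PadicAlgCl ℓ, ‖u‖ = 1 ∧ ∀ τ ∈ Iq ℓ, τ u = f τ * u

variable {ℓ}

theorem UnitRad.one : UnitRad ℓ (fun _ => 1) :=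
  ⟨1, norm_one, fun τ _ => by rw [map_one, one_mul]⟩

theorem UnitRad.congr {f g : Gq ℓ → PadicAlgCl ℓ} (h : ∀ τ ∈ Iq ℓ, f τ = g τ)
    (hf : UnitRad ℓ f) : UnitRad ℓ g := by
  obtain ⟨u, hu, hτ⟩ := hf
  exact ⟨u, hu, fun τ hτI => by rw [hτ τ hτI, h τ hτI]⟩

theorem UnitRad.mul {f g : Gq ℓ → PadicAlgCl ℓ} (hf : UnitRad ℓ f) (hg : UnitRad ℓ g) :
    UnitRad ℓ (fun τ => f τ * g τ) := by
  obtain ⟨u, hu, hfu⟩ := hf
  obtain ⟨v, hv, hgv⟩ := hg
  refine ⟨u * v, by rw [norm_mul, hu, hv, one_mul], fun τ hτ => ?_⟩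
  rw [map_mul, hfu τ hτ, hgv τ hτ]
  ring

theorem UnitRad.inv {f : Gq ℓ → PadicAlgCl ℓ} (hf : UnitRad ℓ f) :
    UnitRad ℓ (fun τ => (f τ)⁻¹) := by
  obtain ⟨u, hu, hfu⟩ := hf
  refine ⟨u⁻¹, by rw [norm_inv, hu, inv_one], fun τ hτ => ?_⟩
  rw [map_inv₀, hfu τ hτ, mul_inv]

/-! ### characters -/

variable (ℓ) in
/-- `j` is a character on the subgroup `T`. -/
def IsChar {B : Type*} [AddCommGroup B] (T : AddSubgroup B) (j : B → PadicAlgCl ℓ) : Prop :=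
  j 0 = 1 ∧ ∀ a ∈ T, ∀ b ∈ T, j (a + b) = j a * j b

section Char

variable {B : Type*} [AddCommGroup B] {T : AddSubgroup B} {j : B → PadicAlgCl ℓ}

theorem IsChar.mul_neg (hj : IsChar ℓ T j) {a : B} (ha : a ∈ T) : j a * j (-a) = 1 := by
  rw [← hj.2 a ha (-a) (T.neg_mem ha), add_neg_cancel, hj.1]

theorem IsChar.ne_zero (hj : IsChar ℓ T j) {a : B} (ha : a ∈ T) : j a ≠ 0 := by
  intro h0
  have := hj.mul_neg ha
  rw [h0, zero_mul] at this
  exact zero_ne_one this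

theorem IsChar.neg (hj : IsChar ℓ T j) {a : B} (ha : a ∈ T) : j (-a) = (j a)⁻¹ :=
  eq_inv_of_mul_eq_one_right (hj.mul_neg ha)

theorem IsChar.mono {T' : AddSubgroup B} (h : T' ≤ T) (hj : IsChar ℓ T j) : IsChar ℓ T' j :=
  ⟨hj.1, fun a ha b hb => hj.2 a (h ha) b (h hb)⟩

end Char

/-! ### the ordinary + peu ramifié condition -/

variable (ℓ) in
/-- `B0` is a finite subgroup of `B` with `B/B0` unramified and unit Kummer classes. -/
structure OrdPeu (B : Rep.{0} ℤ (Gq ℓ)) (B0 : AddSubgroup B) : Prop where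
  fin : Finite B0
  et : ∀ τ ∈ Iq ℓ, ∀ b : B, B.ρ τ b - b ∈ B0
  ext_unit : ∀ j : B → PadicAlgCl ℓ, IsChar ℓ B0 j → ∀ b : B,
    UnitRad ℓ (fun τ => j (B.ρ τ b - b))

/-- the two conditions on a cocycle. -/
def CocOrd (B : Rep.{0} ℤ (Gq ℓ)) (B0 : AddSubgroup B) (c : Gq ℓ → B) : Prop :=
  (∀ τ ∈ Iq ℓ, c τ ∈ B0) ∧ ∀ j : B → PadicAlgCl ℓ, IsChar ℓ B0 j → UnitRad ℓ (fun τ => j (c τ))

section Coc

variable {B : Rep.{0} ℤ (Gq ℓ)} {B0 : AddSubgroup B}

theorem cocOrd_zero : CocOrd B B0 (0 : Gq ℓ → B) :=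
  ⟨fun _ _ => B0.zero_mem, fun j hj =>
    UnitRad.congr (f := fun _ => 1) (fun τ _ => by simp [hj.1]) UnitRad.one⟩

theorem CocOrd.add {c c' : Gq ℓ → B} (h : CocOrd B B0 c) (h' : CocOrd B B0 c') :
    CocOrd B B0 (c + c') :=
  ⟨fun τ hτ => B0.add_mem (h.1 τ hτ) (h'.1 τ hτ), fun j hj =>
    UnitRad.congr (fun τ hτ => by
      show j (c τ) * j (c' τ) = j (c τ + c' τ)
      rw [hj.2 _ (h.1 τ hτ) _ (h'.1 τ hτ)]) ((h.2 j hj).mul (h'.2 j hj))⟩

theorem CocOrd.neg {c : Gq ℓ → B} (h : CocOrd B B0 c) : CocOrd B B0 (-c) :=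
  ⟨fun τ hτ => B0.neg_mem (h.1 τ hτ), fun j hj =>
    UnitRad.congr (fun τ hτ => by
      show (j (c τ))⁻¹ = j (-(c τ))
      rw [hj.neg (h.1 τ hτ)]) (h.2 j hj).inv⟩

theorem cocOrd_coboundary (h : OrdPeu ℓ B B0) (b : B) :
    CocOrd B B0 (fun τ => B.ρ τ b - b) :=
  ⟨fun τ hτ => h.et τ hτ b, fun j hj => h.ext_unit j hj b⟩

end Coc

/-! The `ℤ`-module structure on `H1 (levelLoc ℓ) B` used by `mapH1`, `H1ur`, `Sel` (which are stated
over a general coefficient ring `k`) is the quotient structure `Submodule.Quotient.module`, which is not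
reducibly defeq to `AddCommGroup.toIntModule`; so we erase the latter instance (in this file only): all
`Submodule ℤ (H1 ..)` below are with respect to the quotient structure. -/
attribute [-instance] AddCommGroup.toIntModule

variable (ℓ) in
/-- the classes having an `ordinary + peu ramifié` representative, as an additive subgroup. -/
def LordAdd (B : Rep.{0} ℤ (Gq ℓ)) (B0 : AddSubgroup B) : AddSubgroup (H1 (levelLoc ℓ) B) where
  carrier := {x | ∃ c : ↥(Z1 (levelLoc ℓ) B), H1mk (levelLoc ℓ) B c = x ∧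
    CocOrd B B0 (c : Gq ℓ → B)}
  add_mem' := by
    rintro _ _ ⟨c, rfl, hc⟩ ⟨c', rfl, hc'⟩
    exact ⟨c + c', map_add _ _ _, hc.add hc'⟩
  zero_mem' := ⟨0, map_zero _, cocOrd_zero⟩
  neg_mem' := by
    rintro _ ⟨c, rfl, hc⟩
    exact ⟨-c, map_neg _ _, hc.neg⟩

variable (ℓ) in
/-- **the local condition `ordinary + peu ramifié`.** -/
def Lord (B : Rep.{0} ℤ (Gq ℓ)) (B0 : AddSubgroup B) : Submodule ℤ (H1 (levelLoc ℓ) B) where
  carrier := LordAdd ℓ B B0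
  add_mem' := (LordAdd ℓ B B0).add_mem
  zero_mem' := (LordAdd ℓ B B0).zero_mem
  smul_mem' := by
    intro n x hx
    have h := (LordAdd ℓ B B0).zsmul_mem hx n
    rwa [← int_smul_eq_zsmul (Submodule.Quotient.module _)] at h

theorem mem_Lord {B : Rep.{0} ℤ (Gq ℓ)} {B0 : AddSubgroup B} {x : H1 (levelLoc ℓ) B} :
    x ∈ Lord ℓ B B0 ↔ ∃ c : ↥(Z1 (levelLoc ℓ) B), H1mk (levelLoc ℓ) B c = x ∧
      CocOrd B B0 (c : Gq ℓ → B) := Iff.rfl

variable (ℓ) in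
/-- the `unit classes` of a rep with a character, inertia form. -/
def HunitIAdd (X : Rep.{0} ℤ (Gq ℓ)) (ι : X → PadicAlgCl ℓ) (hι : IsChar ℓ ⊤ ι) :
    AddSubgroup (H1 (levelLoc ℓ) X) where
  carrier := {x | ∃ c : ↥(Z1 (levelLoc ℓ) X), H1mk (levelLoc ℓ) X c = x ∧
    UnitRad ℓ (fun τ => ι ((c : Gq ℓ → X) τ))}
  add_mem' := by
    rintro _ _ ⟨c, rfl, hc⟩ ⟨c', rfl, hc'⟩
    refine ⟨c + c', map_add _ _ _, UnitRad.congr (fun τ _ => ?_) (hc.mul hc')⟩
    show ι ((c : Gq ℓ → X) τ) * ι ((c' : Gq ℓ → X) τ) = ι ((c : Gq ℓ → X) τ + (c' : Gq ℓ → X) τ)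
    rw [hι.2 _ (AddSubgroup.mem_top _) _ (AddSubgroup.mem_top _)]
  zero_mem' := ⟨0, map_zero _, UnitRad.congr (f := fun _ => 1)
    (fun τ _ => by
      show (1 : PadicAlgCl ℓ) = ι ((0 : Gq ℓ → X) τ)
      rw [Pi.zero_apply, hι.1]) UnitRad.one⟩
  neg_mem' := by
    rintro _ ⟨c, rfl, hc⟩
    refine ⟨-c, map_neg _ _, UnitRad.congr (fun τ _ => ?_) hc.inv⟩
    show (ι ((c : Gq ℓ → X) τ))⁻¹ = ι (-((c : Gq ℓ → X) τ))
    rw [hι.neg (AddSubgroup.mem_top _)]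

variable (ℓ) in
/-- **the unit classes**, inertia form. -/
def HunitI (X : Rep.{0} ℤ (Gq ℓ)) (ι : X → PadicAlgCl ℓ) (hι : IsChar ℓ ⊤ ι) :
    Submodule ℤ (H1 (levelLoc ℓ) X) where
  carrier := HunitIAdd ℓ X ι hι
  add_mem' := (HunitIAdd ℓ X ι hι).add_mem
  zero_mem' := (HunitIAdd ℓ X ι hι).zero_mem
  smul_mem' := by
    intro n x hx
    have h := (HunitIAdd ℓ X ι hι).zsmul_mem hx n
    rwa [← int_smul_eq_zsmul (Submodule.Quotient.module _)] at h

theorem mem_HunitI {X : Rep.{0} ℤ (Gq ℓ)} {ι : X → PadicAlgCl ℓ} {hι : IsChar ℓ ⊤ ι}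
    {x : H1 (levelLoc ℓ) X} :
    x ∈ HunitI ℓ X ι hι ↔ ∃ c : ↥(Z1 (levelLoc ℓ) X), H1mk (levelLoc ℓ) X c = x ∧
      UnitRad ℓ (fun τ => ι ((c : Gq ℓ → X) τ)) := Iff.rfl

/-! ### representatives -/

/-- two cocycles with the same class differ by a coboundary. -/
theorem exists_coboundary {B : Rep.{0} ℤ (Gq ℓ)} {c c' : ↥(Z1 (levelLoc ℓ) B)}
    (h : H1mk (levelLoc ℓ) B c = H1mk (levelLoc ℓ) B c') :
    ∃ b : B, ∀ τ : Gq ℓ, (c : Gq ℓ → B) τ = (c' : Gq ℓ → B) τ + (B.ρ τ b - b) := by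
  have h0 : H1mk (levelLoc ℓ) B (c - c') = 0 := by rw [map_sub, h, sub_self]
  rw [H1mk_eq_zero_iff] at h0
  obtain ⟨b, hb⟩ := h0
  refine ⟨b, fun τ => ?_⟩
  have := congrFun hb τ
  rw [d₀₁_hom_apply] at this
  have h2 : ((c - c' : ↥(Z1 (levelLoc ℓ) B)) : Gq ℓ → B) τ =
      (c : Gq ℓ → B) τ - (c' : Gq ℓ → B) τ := rfl
  rw [h2] at this
  rw [this]
  abel

/-- **under `OrdPeu`, every representative of a class of `Lord` satisfies the two conditions.** -/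
theorem cocOrd_of_mem_Lord {B : Rep.{0} ℤ (Gq ℓ)} {B0 : AddSubgroup B} (h : OrdPeu ℓ B B0)
    (c : ↥(Z1 (levelLoc ℓ) B)) (hc : H1mk (levelLoc ℓ) B c ∈ Lord ℓ B B0) :
    CocOrd B B0 (c : Gq ℓ → B) := by
  obtain ⟨c', hc', hord⟩ := mem_Lord.1 hc
  obtain ⟨b, hb⟩ := exists_coboundary hc'.symm
  have : (c : Gq ℓ → B) = (c' : Gq ℓ → B) + fun τ => B.ρ τ b - b := by
    funext τ
    exact hb τ
  rw [this]
  exact hord.add (cocOrd_coboundary h b)

/-- for an inertia-equivariant character the unit condition does not depend on the representative. -/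
theorem unitRad_of_mem_HunitI {X : Rep.{0} ℤ (Gq ℓ)} {ι : X → PadicAlgCl ℓ} (hι : IsChar ℓ ⊤ ι)
    (hιeq : ∀ τ ∈ Iq ℓ, ∀ x : X, ι (X.ρ τ x) = τ (ι x)) (hιu : ∀ x : X, ‖ι x‖ = 1)
    (c : ↥(Z1 (levelLoc ℓ) X)) (hc : H1mk (levelLoc ℓ) X c ∈ HunitI ℓ X ι hι) :
    UnitRad ℓ (fun τ => ι ((c : Gq ℓ → X) τ)) := by
  obtain ⟨c', hc', hu⟩ := mem_HunitI.1 hc
  obtain ⟨b, hb⟩ := exists_coboundary hc'.symm
  have hcob : UnitRad ℓ (fun τ => ι (X.ρ τ b - b)) := by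
    refine ⟨ι b, hιu b, fun τ hτ => ?_⟩
    show τ (ι b) = ι (X.ρ τ b - b) * ι b
    rw [sub_eq_add_neg, hι.2 _ (AddSubgroup.mem_top _) _ (AddSubgroup.mem_top _),
      hι.neg (AddSubgroup.mem_top _), hιeq τ hτ,
      inv_mul_cancel_right₀ (hι.ne_zero (AddSubgroup.mem_top _))]
  refine UnitRad.congr (fun τ _ => ?_) (hu.mul hcob)
  show ι ((c' : Gq ℓ → X) τ) * ι (X.ρ τ b - b) = ι ((c : Gq ℓ → X) τ)
  rw [hb τ, hι.2 _ (AddSubgroup.mem_top _) _ (AddSubgroup.mem_top _)]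

/-! ### Claim L -/

section ClaimL

variable {A B X : Rep.{0} ℤ (Gq ℓ)} {B0 : AddSubgroup B}
  (φ : A →ₗ[ℤ] B) (hφ : ∀ g a, φ (A.ρ g a) = B.ρ g (φ a))
  (ψ : A →ₗ[ℤ] X) (hψ : ∀ g a, ψ (A.ρ g a) = X.ρ g (ψ a))

/-- **Claim L, étale type**: if `φ⁻¹(B0)` dies in `X`, the induced condition on `X` is unramified. -/
theorem claimL_et (h : OrdPeu ℓ B B0) (het : ∀ a : A, φ a ∈ B0 → ψ a = 0) :
    ((Lord ℓ B B0).comap (mapH1 (𝓑 := levelLoc ℓ) φ hφ)).map (mapH1 (𝓑 := levelLoc ℓ) ψ hψ) ≤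
      H1ur ℓ X := by
  rintro _ ⟨y, hy, rfl⟩
  obtain ⟨a, rfl⟩ := H1mk_surjective (levelLoc ℓ) A y
  have hy' : H1mk (levelLoc ℓ) B (mapZ1 φ hφ a) ∈ Lord ℓ B B0 := by
    rw [← mapH1_mk]
    exact hy
  have hord := cocOrd_of_mem_Lord h _ hy'
  refine ⟨mapZ1 ψ hψ a, (mapH1_mk ψ hψ a).symm, 0, fun τ hτ => ?_⟩
  show ψ ((a : Gq ℓ → A) τ) = X.ρ τ 0 - 0
  rw [map_zero, sub_zero]
  exact het _ (hord.1 τ hτ)

/-- extension of a character from `φ(A) ∩ B0` to `B0`. -/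
theorem exists_char_extension (hfin : Finite B0) (hφinj : Function.Injective φ)
    (ι : X → PadicAlgCl ℓ) (hι : IsChar ℓ ⊤ ι) :
    ∃ j : B → PadicAlgCl ℓ, IsChar ℓ B0 j ∧ ∀ a : A, φ a ∈ B0 → j (φ a) = ι (ψ a) := by
  classical
  have := hfin
  -- the multiplicative group `G` of `B0` and its subgroup `H = φ(A) ∩ B0`
  let G := Multiplicative ↥B0
  let H : Subgroup G :=
    { carrier := {t | ∃ a : A, φ a = ((Multiplicative.toAdd t : ↥B0) : B)}
      mul_mem' := by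
        rintro s t ⟨a, ha⟩ ⟨a', ha'⟩
        exact ⟨a + a', by rw [map_add, ha, ha']; rfl⟩
      one_mem' := ⟨0, by rw [map_zero]; rfl⟩
      inv_mem' := by
        rintro s ⟨a, ha⟩
        exact ⟨-a, by rw [map_neg, ha]; rfl⟩ }
  -- the character of `H`
  have hιne : ∀ x : X, ι x ≠ 0 := fun x => hι.ne_zero (AddSubgroup.mem_top _)
  let χH : H →* (PadicAlgCl ℓ)ˣ :=
    { toFun := fun t => Units.mk0 (ι (ψ (Classical.choose t.2))) (hιne _)
      map_one' := by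
        apply Units.ext
        show ι (ψ (Classical.choose (1 : H).2)) = 1
        have h1 := Classical.choose_spec (1 : H).2
        have h0 : Classical.choose (1 : H).2 = 0 := by
          apply hφinj
          rw [h1, map_zero]
          rfl
        rw [h0, map_zero, hι.1]
      map_mul' := by
        intro s t
        apply Units.ext
        show ι (ψ (Classical.choose (s * t).2)) =
          ι (ψ (Classical.choose s.2)) * ι (ψ (Classical.choose t.2))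
        have hs := Classical.choose_spec s.2
        have ht := Classical.choose_spec t.2
        have hst := Classical.choose_spec (s * t).2
        have e : Classical.choose (s * t).2 = Classical.choose s.2 + Classical.choose t.2 := by
          apply hφinj
          rw [hst, map_add, hs, ht]
          rfl
        rw [e, map_add, hι.2 _ (AddSubgroup.mem_top _) _ (AddSubgroup.mem_top _)] }
  have : NeZero ((Monoid.exponent G : ℕ) : ℚ_[ℓ]) :=
    ⟨by exact_mod_cast Monoid.exponent_ne_zero_of_finite⟩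
  obtain ⟨χ, hχ⟩ := MonoidHom.domRestrict_surjective (M := PadicAlgCl ℓ) H χH
  refine ⟨fun b => if hb : b ∈ B0 then ((χ (Multiplicative.ofAdd ⟨b, hb⟩) : (PadicAlgCl ℓ)ˣ) :
    PadicAlgCl ℓ) else 1, ⟨?_, ?_⟩, ?_⟩
  · beta_reduce
    rw [dif_pos B0.zero_mem]
    have : (Multiplicative.ofAdd (⟨0, B0.zero_mem⟩ : ↥B0) : G) = 1 := rfl
    rw [this, map_one, Units.val_one]
  · intro a ha b hb
    beta_reduce
    rw [dif_pos ha, dif_pos hb, dif_pos (B0.add_mem ha hb), ← Units.val_mul, ← map_mul]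
    rfl
  · intro a ha
    beta_reduce
    rw [dif_pos ha]
    have hmem : (Multiplicative.ofAdd (⟨φ a, ha⟩ : ↥B0) : G) ∈ H := ⟨a, rfl⟩
    have h1 : χ (Multiplicative.ofAdd (⟨φ a, ha⟩ : ↥B0)) = χH ⟨_, hmem⟩ := by
      rw [← hχ]
      rfl
    rw [h1]
    show ι (ψ (Classical.choose hmem)) = ι (ψ a)
    have h2 : Classical.choose hmem = a := hφinj (Classical.choose_spec hmem)
    rw [h2]

/-- **Claim L, general (multiplicative) form**: the induced condition on `X` consists of unit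
classes for every character `ι` of `X`. -/
theorem claimL_mult (h : OrdPeu ℓ B B0) (hφinj : Function.Injective φ)
    (ι : X → PadicAlgCl ℓ) (hι : IsChar ℓ ⊤ ι) :
    ((Lord ℓ B B0).comap (mapH1 (𝓑 := levelLoc ℓ) φ hφ)).map (mapH1 (𝓑 := levelLoc ℓ) ψ hψ) ≤
      HunitI ℓ X ι hι := by
  rintro _ ⟨y, hy, rfl⟩
  obtain ⟨a, rfl⟩ := H1mk_surjective (levelLoc ℓ) A y
  have hy' : H1mk (levelLoc ℓ) B (mapZ1 φ hφ a) ∈ Lord ℓ B B0 := by
    rw [← mapH1_mk]
    exact hy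
  have hord := cocOrd_of_mem_Lord h _ hy'
  obtain ⟨j, hj, hjι⟩ := exists_char_extension φ ψ h.fin hφinj ι hι
  refine ⟨mapZ1 ψ hψ a, (mapH1_mk ψ hψ a).symm, UnitRad.congr (fun τ hτ => ?_) (hord.2 j hj)⟩
  show j (φ ((a : Gq ℓ → A) τ)) = ι (ψ ((a : Gq ℓ → A) τ))
  exact hjι _ (hord.1 τ hτ)

end ClaimL

end Fermat.Agent.MZ.LOCL.OrdPeu4
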